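import Mathlib.NumberTheory.ModularForms.QExpansion
import Mathlib.Analysis.Complex.HasPrimitives

/-!
# Primitives of periodic holomorphic functions on the upper half plane vanishing at `i∞`

If `f : ℍ → ℂ` is holomorphic, `h`-periodic and tends to `0` at `i∞`, then it has a holomorphic
primitive `F` which is again `h`-periodic and tends to `0` at `i∞`.
-/

set_option autoImplicit false

open Complex Filter Function Metric Set
open UpperHalfPlane hiding I
open scoped Real Topology Manifold

namespace Fermat.Agent.Period

/-- derivative of the `q`-parameter. -/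
theorem hasDerivAt_qParam (h : ℝ) (z : ℂ) :
    HasDerivAt (Periodic.qParam h) (2 * π * I / h * Periodic.qParam h z) z := by
  unfold Periodic.qParam
  have h1 : HasDerivAt (fun w : ℂ => 2 * π * I * w / h) (2 * π * I / h) z := by
    have := ((hasDerivAt_id z).const_mul (2 * π * I)).div_const (h : ℂ)
    simpa using this
  have := h1.cexp
  simpa [mul_comm] using this

/-- the `q`-parameter is `h`-periodic. -/
theorem qParam_add_period {h : ℝ} (hh : h ≠ 0) (w : ℂ) :
    Periodic.qParam h (w + h) = Periodic.qParam h w := by
  have hhc : (h : ℂ) ≠ 0 := by exact_mod_cast hh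
  unfold Periodic.qParam
  have : 2 * π * I * (w + h) / h = 2 * π * I * w / h + 2 * π * I := by
    field_simp
  rw [this, Complex.exp_add, Complex.exp_two_pi_mul_I, mul_one]

/-- **Primitive lemma.** A holomorphic `h`-periodic function on `ℍ` which is zero at `i∞` has a
holomorphic `h`-periodic primitive which is zero at `i∞`. -/
theorem exists_periodic_primitive {h : ℝ} (hh : 0 < h) {f : ℍ → ℂ} (hfhol : MDiff f)
    (hfper : Periodic (f ∘ ofComplex) h) (hf0 : IsZeroAtImInfty f) :
    ∃ F : ℍ → ℂ, MDiff F ∧ (∀ τ : ℍ, HasDerivAt (F ∘ ofComplex) (f τ) τ) ∧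
      Periodic (F ∘ ofComplex) h ∧ IsZeroAtImInfty F := by
  -- the cusp function and its slope at zero
  set g : ℂ → ℂ := cuspFunction h f with hg
  have hgdiff : DifferentiableOn ℂ g (ball 0 1) :=
    differentiableOn_cuspFunction_ball hh hfper hfhol hf0.isBoundedAtImInfty
  have hg0 : g 0 = 0 := hf0.cuspFunction_apply_zero hh
  have hball : ball (0 : ℂ) 1 ∈ 𝓝 (0 : ℂ) := ball_mem_nhds _ one_pos
  have hddiff : DifferentiableOn ℂ (dslope g 0) (ball 0 1) :=
    (differentiableOn_dslope hball).mpr hgdiff
  have hd_mul : ∀ q : ℂ, q * dslope g 0 q = g q := by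
    intro q
    have := sub_smul_dslope g 0 q
    simpa [hg0, smul_eq_mul] using this
  -- a primitive of `(h / (2πi)) • dslope g 0` on the unit disc
  have hcdiff : DifferentiableOn ℂ (fun q => (h / (2 * π * I)) * dslope g 0 q) (ball 0 1) :=
    hddiff.const_mul _
  obtain ⟨D, hD⟩ := hcdiff.isExactOn_ball
  have hqball : ∀ z : ℂ, 0 < z.im → Periodic.qParam h z ∈ ball (0 : ℂ) 1 := by
    intro z hz
    simpa using Periodic.norm_qParam_lt_one hh hz
  have h2pi : (2 * π * I : ℂ) ≠ 0 := Complex.two_pi_I_ne_zero
  have hhc : (h : ℂ) ≠ 0 := by exact_mod_cast hh.ne'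
  -- the primitive
  refine ⟨fun τ => D (Periodic.qParam h τ) - D 0, ?_, ?_, ?_, ?_⟩
  · -- holomorphic
    rw [UpperHalfPlane.mdifferentiable_iff]
    intro z hz
    have hz' : 0 < z.im := hz
    have hDz : DifferentiableAt ℂ D (Periodic.qParam h z) := (hD _ (hqball z hz')).differentiableAt
    have h1 : DifferentiableAt ℂ (fun w : ℂ => D (Periodic.qParam h w) - D 0) z :=
      (hDz.comp z (Periodic.differentiable_qParam z)).sub_const _
    refine (h1.differentiableWithinAt).congr (fun w hw => ?_) ?_
    · simp [Function.comp, ofComplex_apply_of_im_pos hw]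
    · simp [Function.comp, ofComplex_apply_of_im_pos hz']
  · -- derivative
    intro τ
    have hτ : 0 < (τ : ℂ).im := τ.2
    have hDz := hD _ (hqball τ hτ)
    have h1 : HasDerivAt (fun w : ℂ => D (Periodic.qParam h w) - D 0) (f τ) τ := by
      have h2 := (hDz.comp (τ : ℂ) (hasDerivAt_qParam h τ)).sub_const (D 0)
      have h3 : g (Periodic.qParam h τ) = f τ := eq_cuspFunction τ hh.ne' hfper
      have h4 : (fun q => (h / (2 * π * I)) * dslope g 0 q) (Periodic.qParam h τ) *
          (2 * π * I / h * Periodic.qParam h τ) = f τ := by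
        rw [← h3, ← hd_mul]
        field_simp
      rw [h4] at h2
      exact h2
    refine h1.congr_of_eventuallyEq ?_
    have hopen : {z : ℂ | 0 < z.im} ∈ 𝓝 (τ : ℂ) :=
      (isOpen_lt continuous_const Complex.continuous_im).mem_nhds hτ
    filter_upwards [hopen] with w hw
    simp [Function.comp, ofComplex_apply_of_im_pos hw]
  · -- periodic
    intro w
    by_cases hw : 0 < w.im
    · have hw' : 0 < (w + h).im := by simpa using hw
      simp only [Function.comp, ofComplex_apply_of_im_pos hw, ofComplex_apply_of_im_pos hw']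
      have : Periodic.qParam h (w + h) = Periodic.qParam h w := qParam_add_period hh.ne' w
      simp [this]
    · have hw' : ¬ 0 < (w + h).im := by simpa using hw
      have e1 : ofComplex (w + h) = ofComplex w := by
        rw [ofComplex_apply_of_im_nonpos (not_lt.mp hw'), ofComplex_apply_of_im_nonpos (not_lt.mp hw)]
      simp only [Function.comp, e1]
  · -- zero at infinity
    have hcont : ContinuousAt D 0 := (hD 0 (mem_ball_self one_pos)).continuousAt
    have ht : Tendsto (fun τ : ℍ => Periodic.qParam h τ) atImInfty (𝓝 0) :=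
      qParam_tendsto_atImInfty hh
    have := (hcont.tendsto.comp ht).sub_const (D 0)
    simpa [IsZeroAtImInfty, ZeroAtFilter, Function.comp] using this

end Fermat.Agent.Period
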